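/-
Cluster J (S59), J8, leaf NC0 (Tate's formula), sub-piece SOCLE.  Proof: helper85.
Architect of NC0: helper25 (file `S59/NumCrit/Tate.lean`).

Socle lemma for the "Artinian complete intersection" `R⟦X₁..X_r⟧/(f₁..f_r)`, `f_i = Σ_j c_ij X_j`:
if some power `X_i ^ N` of every variable lies in `(f)`, then `det c ∉ (f)`.

Proof (elementary, no Koszul complex, no syzygies): `X_i ^ (N+1) = Σ_j b_ij f_j`, so `M := b * c`
has `M X = (X_i ^ (N+1))_i`.  By `tate_coeff_det` (Cramer + induction on the number of variables)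
the coefficient of `∏ X_i ^ N` in `det M` is `1`.  If `det c ∈ (f)` then
`det M = det b * det c ∈ det b • (f) ⊆ (b f) = (X_i^(N+1))` (Cramer again), and the coefficient of
`∏ X_i^N` in any element of `(X_1^(N+1), .., X_r^(N+1))` is `0`.
-/
import Fermat.Agent.S59.NumCrit.Tate.Socle.Coeff
import Mathlib.RingTheory.MvPowerSeries.Basic
import Mathlib.LinearAlgebra.Matrix.Determinant.Basic
import Mathlib.RingTheory.Ideal.Span
import Mathlib.RingTheory.Ideal.Operations

set_option autoImplicit false

namespace Fermat.Agent.S59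

theorem tate_det_not_mem_span {R : Type} [CommRing R] [Nontrivial R] (r : ℕ)
    (c : Matrix (Fin r) (Fin r) (MvPowerSeries (Fin r) R)) (N : ℕ)
    (hN : ∀ i, (MvPowerSeries.X i : MvPowerSeries (Fin r) R) ^ N ∈
      Ideal.span (Set.range fun i => ∑ j, c i j * MvPowerSeries.X j)) :
    c.det ∉ Ideal.span (Set.range fun i => ∑ j, c i j * MvPowerSeries.X j) := by
  classical
  intro hdet
  set f : Fin r → MvPowerSeries (Fin r) R := fun i => ∑ j, c i j * MvPowerSeries.X j with hf
  -- `X_i ^ (N+1) = Σ_j b_ij f_j`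
  have hN' : ∀ i, ∃ b : Fin r → MvPowerSeries (Fin r) R,
      ∑ j, b j * f j = (MvPowerSeries.X i : MvPowerSeries (Fin r) R) ^ (N + 1) := by
    intro i
    have h1 : (MvPowerSeries.X i : MvPowerSeries (Fin r) R) ^ (N + 1) ∈
        Ideal.span (Set.range f) := by
      rw [pow_succ]
      exact Ideal.mul_mem_right _ _ (hN i)
    exact Ideal.mem_span_range_iff_exists_fun.mp h1
  choose b hb using hN'
  set B : Matrix (Fin r) (Fin r) (MvPowerSeries (Fin r) R) := Matrix.of b with hB
  set M : Matrix (Fin r) (Fin r) (MvPowerSeries (Fin r) R) := B * c with hM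
  have hMx : ∀ i, ∑ j, M i j * MvPowerSeries.X j =
      (MvPowerSeries.X i : MvPowerSeries (Fin r) R) ^ (N + 1) := by
    intro i
    rw [← hb i]
    simp only [hM, Matrix.mul_apply, Finset.sum_mul, hf, Finset.mul_sum]
    rw [Finset.sum_comm]
    refine Finset.sum_congr rfl fun j _ => Finset.sum_congr rfl fun l _ => ?_
    rw [hB, Matrix.of_apply, mul_assoc]
  have hkey : MvPowerSeries.coeff (tateMono (id : Fin r → Fin r) N) M.det = 1 := by
    refine tate_coeff_det N r id Function.injective_id M fun i => ?_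
    have e : ∑ j, M i j * MvPowerSeries.X (id j) - MvPowerSeries.X (id i) ^ (N + 1) = 0 := by
      simp only [id]
      rw [hMx, sub_self]
    rw [e]
    exact tateNegl_zero _
  -- `det M ∈ (X_l ^ (N+1))`
  obtain ⟨h, hh⟩ := Ideal.mem_span_range_iff_exists_fun.mp hdet
  have hBf : ∀ j, B.det * f j =
      ∑ l, B.adjugate j l * (MvPowerSeries.X l : MvPowerSeries (Fin r) R) ^ (N + 1) := by
    intro j
    rw [tate_det_mul_eq B f j]
    refine Finset.sum_congr rfl fun l _ => ?_
    rw [← hb l]
    rfl
  have hzero : MvPowerSeries.coeff (tateMono (id : Fin r → Fin r) N) M.det = 0 := by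
    rw [hM, Matrix.det_mul, ← hh, Finset.mul_sum, map_sum]
    refine Finset.sum_eq_zero fun j _ => ?_
    rw [mul_left_comm, hBf, Finset.mul_sum, map_sum]
    refine Finset.sum_eq_zero fun l _ => ?_
    rw [← mul_assoc, MvPowerSeries.X_pow_eq, MvPowerSeries.coeff_mul_monomial, if_neg]
    intro hle
    have h2 := hle l
    have h3 := tateMono_apply (id : Fin r → Fin r) Function.injective_id N l
    rw [Finsupp.single_eq_same] at h2
    simp only [id] at h3
    omega
  rw [hkey] at hzero
  exact one_ne_zero hzero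

end Fermat.Agent.S59
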