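/-
Cluster J (S59), J8, leaf NC0 (Tate's formula): the congruence ideal of a complete intersection in
normal form is generated by `det c(0)`.
Owner: helper25.

Normal form: `γ : 𝒪⟦X₁..X_r⟧ ↠ T` with `π ∘ γ = constantCoeff` and `ker γ = (f_i)`,
`f_i = Σ_j c_ij X_j`; `T` finite free over the discrete valuation ring `𝒪`.
-/
import Fermat.Agent.S59.NumCrit.Defs
import Fermat.Agent.S59.NumCrit.Tate.Socle
import Fermat.Agent.S53.PowerSeries

set_option autoImplicit false

namespace Fermat.Agent.S59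

open IsLocalRing

section cramer

variable {R : Type} [CommRing R] {r : ℕ}
  (c : Matrix (Fin r) (Fin r) (MvPowerSeries (Fin r) R))

/-- Cramer's rule: `det c • X_j ∈ (f)`. -/
theorem tate_det_mul_X_mem (j : Fin r) :
    c.det * MvPowerSeries.X j ∈
      Ideal.span (Set.range fun i => ∑ j, c i j * (MvPowerSeries.X j : MvPowerSeries (Fin r) R)) := by
  have h1 : (c.adjugate * c).mulVec (fun j => (MvPowerSeries.X j : MvPowerSeries (Fin r) R)) j =
      c.det * MvPowerSeries.X j := by
    rw [Matrix.adjugate_mul, Matrix.smul_mulVec, Matrix.one_mulVec, Pi.smul_apply, smul_eq_mul]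
  rw [← h1, ← Matrix.mulVec_mulVec]
  simp only [Matrix.mulVec, dotProduct]
  refine Ideal.sum_mem _ fun i _ => Ideal.mul_mem_left _ _ (Ideal.subset_span ⟨i, rfl⟩)

theorem tate_det_mul_mem_of_constantCoeff_eq_zero (g : MvPowerSeries (Fin r) R)
    (hg : MvPowerSeries.constantCoeff g = 0) :
    c.det * g ∈
      Ideal.span (Set.range fun i => ∑ j, c i j * (MvPowerSeries.X j : MvPowerSeries (Fin r) R)) := by
  have hg' : g ∈ Ideal.span (Set.range (MvPowerSeries.X : Fin r → MvPowerSeries (Fin r) R)) := by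
    have := Fermat.Agent.S53.PowerSeriesAux.mem_span_X_pow_of_coeff_eq_zero (σ := Fin r) 1 g
      (fun x hx => by
        have hx0 : x = 0 := by
          rw [Nat.lt_one_iff] at hx
          exact (Finsupp.degree_eq_zero_iff x).mp hx
        rw [hx0]
        exact hg)
    simpa using this
  obtain ⟨h, rfl⟩ := (Ideal.mem_span_range_iff_exists_fun).mp hg'
  rw [Finset.mul_sum]
  refine Ideal.sum_mem _ fun j _ => ?_
  rw [mul_left_comm]
  exact Ideal.mul_mem_left _ _ (tate_det_mul_X_mem c j)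

end cramer

section ann

variable {𝒪 : Type} [CommRing 𝒪] {T : Type} [CommRing T] [Algebra 𝒪 T] (π : T →ₐ[𝒪] 𝒪)

theorem tate_mem_annihilator_iff (s : T) :
    s ∈ Module.annihilator T (RingHom.ker (π : T →+* 𝒪)) ↔ ∀ t, π t = 0 → s * t = 0 := by
  rw [Module.mem_annihilator]
  constructor
  · intro h t ht
    have := h ⟨t, (RingHom.mem_ker).mpr ht⟩
    exact congrArg Subtype.val this
  · intro h m
    apply Subtype.ext
    exact h m.1 (RingHom.mem_ker.mp m.2)

theorem tate_sub_mem_ker (t : T) : π (t - algebraMap 𝒪 T (π t)) = 0 := by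
  rw [map_sub, AlgHom.commutes, Algebra.algebraMap_self_apply, sub_self]

theorem tate_ann_mul (s : T) (hs : s ∈ Module.annihilator T (RingHom.ker (π : T →+* 𝒪)))
    (t : T) : s * t = π t • s := by
  have h := (tate_mem_annihilator_iff π s).mp hs (t - algebraMap 𝒪 T (π t)) (tate_sub_mem_ker π t)
  rw [mul_sub, sub_eq_zero] at h
  rw [h, Algebra.smul_def, mul_comm]

/-- Two elements of the annihilator of the augmentation ideal are proportional. -/
theorem tate_ann_relation (s D : T)
    (hs : s ∈ Module.annihilator T (RingHom.ker (π : T →+* 𝒪)))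
    (hD : D ∈ Module.annihilator T (RingHom.ker (π : T →+* 𝒪))) :
    π D • s = π s • D := by
  rw [← tate_ann_mul π s hs D, ← tate_ann_mul π D hD s, mul_comm]

variable {r : ℕ} (γ : MvPowerSeries (Fin r) 𝒪 →ₐ[𝒪] T)
  (c : Matrix (Fin r) (Fin r) (MvPowerSeries (Fin r) 𝒪))

/-- Cramer: the image of `det c` kills the augmentation ideal. -/
theorem tate_det_mem_annihilator (hγ : Function.Surjective γ)
    (hε : ∀ g, π (γ g) = MvPowerSeries.constantCoeff g)
    (hker : RingHom.ker (γ : MvPowerSeries (Fin r) 𝒪 →+* T) =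
      Ideal.span (Set.range fun i => ∑ j, c i j * MvPowerSeries.X j)) :
    γ c.det ∈ Module.annihilator T (RingHom.ker (π : T →+* 𝒪)) := by
  rw [tate_mem_annihilator_iff]
  intro t ht
  obtain ⟨g, rfl⟩ := hγ t
  rw [hε] at ht
  have h := tate_det_mul_mem_of_constantCoeff_eq_zero c g ht
  rw [← hker, RingHom.mem_ker] at h
  rw [← map_mul]
  exact h

end ann

section socle

variable {𝒪 : Type} [CommRing 𝒪] [IsLocalRing 𝒪] {T : Type} [CommRing T] [Algebra 𝒪 T]
  {r : ℕ} (γ : MvPowerSeries (Fin r) 𝒪 →ₐ[𝒪] T)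
  (c : Matrix (Fin r) (Fin r) (MvPowerSeries (Fin r) 𝒪))

attribute [local instance] Ideal.Quotient.field

/-- The images of the variables are nilpotent modulo the maximal ideal of `𝒪`. -/
theorem tate_exists_pow_mem_map [Module.Finite 𝒪 T] (hγ : Function.Surjective γ) :
    ∃ N : ℕ, ∀ i, γ (MvPowerSeries.X i) ^ N ∈ (maximalIdeal 𝒪).map (algebraMap 𝒪 T) := by
  set I : Ideal T := (maximalIdeal 𝒪).map (algebraMap 𝒪 T) with hI
  haveI : Module.Finite (𝒪 ⧸ maximalIdeal 𝒪) (T ⧸ I) :=
    Module.Finite.of_restrictScalars_finite 𝒪 _ _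
  haveI : IsArtinianRing (T ⧸ I) := IsArtinianRing.of_finite (𝒪 ⧸ maximalIdeal 𝒪) (T ⧸ I)
  obtain ⟨n, hn⟩ := IsArtinianRing.isNilpotent_jacobson_bot (R := T ⧸ I)
  refine ⟨n, fun i => ?_⟩
  have hx : Ideal.Quotient.mk I (γ (MvPowerSeries.X i)) ∈ Ideal.jacobson (⊥ : Ideal (T ⧸ I)) := by
    rw [Ideal.mem_jacobson_bot]
    intro y
    obtain ⟨t, rfl⟩ := Ideal.Quotient.mk_surjective y
    obtain ⟨g, rfl⟩ := hγ t
    have hu : IsUnit (MvPowerSeries.X i * g + 1 : MvPowerSeries (Fin r) 𝒪) := by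
      rw [MvPowerSeries.isUnit_iff_constantCoeff]
      simp
    have := (hu.map γ).map (Ideal.Quotient.mk I)
    simpa using this
  have h := Ideal.pow_mem_pow hx n
  rw [hn] at h
  have h0 : Ideal.Quotient.mk I (γ (MvPowerSeries.X i) ^ n) = 0 := by
    rw [map_pow]
    simpa using h
  exact Ideal.Quotient.eq_zero_iff_mem.mp h0

/-- Reduction modulo the maximal ideal of `𝒪`: an element of `𝒪⟦X⟧` whose image in `T` lies in
`𝔪 T` reduces into the ideal generated by the reductions of the relations. -/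
theorem tate_map_residue_mem (hγ : Function.Surjective γ)
    (hker : RingHom.ker (γ : MvPowerSeries (Fin r) 𝒪 →+* T) =
      Ideal.span (Set.range fun i => ∑ j, c i j * MvPowerSeries.X j))
    (g : MvPowerSeries (Fin r) 𝒪)
    (hg : γ g ∈ (maximalIdeal 𝒪).map (algebraMap 𝒪 T)) :
    MvPowerSeries.map (residue 𝒪) g ∈
      Ideal.span (Set.range fun i => ∑ j, (c.map (MvPowerSeries.map (residue 𝒪))) i j *
        (MvPowerSeries.X j : MvPowerSeries (Fin r) (ResidueField 𝒪))) := by
  set ρ : MvPowerSeries (Fin r) 𝒪 →+* MvPowerSeries (Fin r) (ResidueField 𝒪) :=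
    MvPowerSeries.map (residue 𝒪) with hρ
  -- `𝔪 T` is the image of `𝔪 𝒪⟦X⟧`
  have hmap : (maximalIdeal 𝒪).map (algebraMap 𝒪 T) =
      ((maximalIdeal 𝒪).map (algebraMap 𝒪 (MvPowerSeries (Fin r) 𝒪))).map
        (γ : MvPowerSeries (Fin r) 𝒪 →+* T) := by
    rw [Ideal.map_map]
    congr 1
    ext x
    simp
  rw [hmap] at hg
  obtain ⟨g', hg', hgg'⟩ := (Ideal.mem_map_iff_of_surjective
    (γ : MvPowerSeries (Fin r) 𝒪 →+* T) hγ).mp hg
  -- `ρ` kills `𝔪 𝒪⟦X⟧`
  have h1 : ρ g' = 0 := by
    have hle : (maximalIdeal 𝒪).map (algebraMap 𝒪 (MvPowerSeries (Fin r) 𝒪)) ≤ RingHom.ker ρ := by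
      rw [Ideal.map_le_iff_le_comap]
      intro x hx
      rw [Ideal.mem_comap, RingHom.mem_ker, hρ, ← MvPowerSeries.c_eq_algebraMap,
        MvPowerSeries.map_C, (residue_eq_zero_iff x).mpr hx, map_zero]
    exact RingHom.mem_ker.mp (hle hg')
  have h2 : g - g' ∈ RingHom.ker (γ : MvPowerSeries (Fin r) 𝒪 →+* T) := by
    rw [RingHom.mem_ker, map_sub, sub_eq_zero]
    exact hgg'.symm
  rw [hker] at h2
  have h3 : ρ (g - g') ∈ Ideal.map ρ
      (Ideal.span (Set.range fun i => ∑ j, c i j * (MvPowerSeries.X j : MvPowerSeries (Fin r) 𝒪))) :=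
    Ideal.mem_map_of_mem ρ h2
  rw [map_sub, h1, sub_zero, Ideal.map_span, ← Set.range_comp] at h3
  convert h3 using 3
  funext i
  simp only [Function.comp_apply, map_sum, map_mul, Matrix.map_apply, hρ, MvPowerSeries.map_X]

/-- The socle claim in `T`: the image of `det c` does not lie in `𝔪 T`. -/
theorem tate_det_not_mem_map [Module.Finite 𝒪 T] (hγ : Function.Surjective γ)
    (hker : RingHom.ker (γ : MvPowerSeries (Fin r) 𝒪 →+* T) =
      Ideal.span (Set.range fun i => ∑ j, c i j * MvPowerSeries.X j)) :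
    γ c.det ∉ (maximalIdeal 𝒪).map (algebraMap 𝒪 T) := by
  intro hmem
  obtain ⟨N, hN⟩ := tate_exists_pow_mem_map γ hγ
  have hsoc := tate_det_not_mem_span (R := ResidueField 𝒪) r
    (c.map (MvPowerSeries.map (residue 𝒪))) N (fun i => by
      have := tate_map_residue_mem γ c hγ hker (MvPowerSeries.X i ^ N) (by
        rw [map_pow]; exact hN i)
      rwa [map_pow, MvPowerSeries.map_X] at this)
  apply hsoc
  have := tate_map_residue_mem γ c hγ hker c.det hmem
  rwa [RingHom.map_det, RingHom.mapMatrix_apply] at this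

end socle

section cong

variable {𝒪 : Type} [CommRing 𝒪] [IsDomain 𝒪] [IsDiscreteValuationRing 𝒪]
  {T : Type} [CommRing T] [Algebra 𝒪 T] [Module.Finite 𝒪 T] [Module.Free 𝒪 T]
  (π : T →ₐ[𝒪] 𝒪) {r : ℕ} (γ : MvPowerSeries (Fin r) 𝒪 →ₐ[𝒪] T)
  (c : Matrix (Fin r) (Fin r) (MvPowerSeries (Fin r) 𝒪))

/-- **Tate's formula**: the congruence ideal of a complete intersection in normal form is generated
by the determinant of the constant terms of the relation matrix. -/
theorem tate_congruenceIdeal_eq (hγ : Function.Surjective γ)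
    (hε : ∀ g, π (γ g) = MvPowerSeries.constantCoeff g)
    (hker : RingHom.ker (γ : MvPowerSeries (Fin r) 𝒪 →+* T) =
      Ideal.span (Set.range fun i => ∑ j, c i j * MvPowerSeries.X j)) :
    congruenceIdeal π = Ideal.span {(c.map MvPowerSeries.constantCoeff).det} := by
  have hD : γ c.det ∈ Module.annihilator T (RingHom.ker (π : T →+* 𝒪)) :=
    tate_det_mem_annihilator π γ c hγ hε hker
  have hπD : π (γ c.det) = (c.map MvPowerSeries.constantCoeff).det := by
    rw [hε, RingHom.map_det, RingHom.mapMatrix_apply]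
  have hsoc := tate_det_not_mem_map γ c hγ hker
  apply le_antisymm
  · rw [congruenceIdeal, Ideal.map_le_iff_le_comap]
    intro s hs
    rw [Ideal.mem_comap, Ideal.mem_span_singleton, ← hπD]
    change π (γ c.det) ∣ π s
    by_cases hs0 : π s = 0
    · rw [hs0]; exact dvd_zero _
    have hrel := tate_ann_relation π s (γ c.det) hs hD
    rcases ValuationRing.dvd_total (π (γ c.det)) (π s) with h | h
    · exact h
    · obtain ⟨u, hu⟩ := h
      by_cases huu : IsUnit u
      · obtain ⟨v, rfl⟩ := huu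
        refine ⟨↑v⁻¹, ?_⟩
        rw [hu, mul_assoc, Units.mul_inv, mul_one]
      · exfalso
        apply hsoc
        have h1 : π s • (u • s) = π s • γ c.det := by
          rw [smul_smul, ← hu, hrel]
        have h2 : u • s = γ c.det := smul_right_injective T hs0 h1
        rw [← h2, Algebra.smul_def]
        exact Ideal.mul_mem_right _ _ (Ideal.mem_map_of_mem _ huu)
  · rw [Ideal.span_singleton_le_iff_mem, ← hπD]
    exact Ideal.mem_map_of_mem (π : T →+* 𝒪) hD

end cong

end Fermat.Agent.S59
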