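/-
Cluster J (S59), J8, leaf NC0 (Tate's formula), sub-piece COT.  Seat: helper63.  Sorry-free.
Architect of NC0: helper25 (file `S59/NumCrit/Tate.lean`).

Normal form: `γ : 𝒪⟦X₁..X_r⟧ ↠ T` with `π ∘ γ = constantCoeff` and `ker γ = (f_i)`,
`f_i = Σ_j c_ij X_j`.  Then the cotangent space `𝔭/𝔭²`, `𝔭 = ker π`, is `𝒪^r` modulo the rows of
`A = c(0)`.

Proof.  `y_j := γ X_j ∈ 𝔭`.  (1) `𝔭 = (y_j)`: `t = γ g ∈ 𝔭` has `constantCoeff g = 0`, so
`g ∈ span (range X)` (`Fermat.Agent.S53.PowerSeriesAux.mem_span_X_pow_of_coeff_eq_zero 1`).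
(2) `ψ : 𝒪^r → 𝔭/𝔭²`, `b ↦ Σ b_j [y_j]` is onto (`T` acts on `𝔭/𝔭²` through `π`).
(3) `ker ψ ⊇ rows A`: `Σ_j A_ij [y_j] = [γ f_i] = 0`.
(4) `ker ψ ⊆ rows A`: `Σ_j b_j y_j ∈ 𝔭² = γ ((X)²)`, so `Σ_j C b_j X_j - q = Σ_i g_i f_i` with
`q ∈ (X)²`; compare the coefficients of `X_j`: `b_j = Σ_i g_i(0) A_ij`.

Helper lemmas (all `tate_cot_*`):
 * `tate_cot_mem_span_X`            : `constantCoeff g = 0 → g ∈ (X)`,
 * `tate_cot_coeff_single_mul_X`    : the `X_j`-coefficient of `h * X_k`,
 * `tate_cot_coeff_single_of_mem_sq`: elements of `(X)²` have no linear term,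
 * `tate_cot_smul_toCotangent`      : `T` acts on `𝔭/𝔭²` through `π`.
-/
import Fermat.Agent.S59.NumCrit.Defs
import Fermat.Agent.S53.PowerSeries
import Mathlib.RingTheory.MvPowerSeries.Basic
import Mathlib.LinearAlgebra.Matrix.ToLin

set_option autoImplicit false

namespace Fermat.Agent.S59

section TateCotAux

variable {𝒪 : Type} [CommRing 𝒪] {r : ℕ}

/-- A power series without constant term lies in the ideal of the variables. -/
theorem tate_cot_mem_span_X (g : MvPowerSeries (Fin r) 𝒪)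
    (hg : MvPowerSeries.constantCoeff g = 0) :
    g ∈ Ideal.span (Set.range (MvPowerSeries.X : Fin r → MvPowerSeries (Fin r) 𝒪)) := by
  have h := Fermat.Agent.S53.PowerSeriesAux.mem_span_X_pow_of_coeff_eq_zero
    (σ := Fin r) (R := 𝒪) 1 g (by
      intro x hx
      have hx0 : x = 0 := by
        have : Finsupp.degree x = 0 := by omega
        exact (Finsupp.degree_eq_zero_iff x).mp this
      subst hx0
      rw [MvPowerSeries.coeff_zero_eq_constantCoeff_apply, hg])
  simpa using h

/-- The coefficient of `X_j` in `h * X_k`. -/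
theorem tate_cot_coeff_single_mul_X (h : MvPowerSeries (Fin r) 𝒪) (j k : Fin r) :
    MvPowerSeries.coeff (Finsupp.single j 1) (h * MvPowerSeries.X k) =
      if k = j then MvPowerSeries.constantCoeff h else 0 := by
  classical
  rw [MvPowerSeries.X_def, MvPowerSeries.coeff_mul_monomial]
  by_cases hkj : k = j
  · subst hkj
    simp [MvPowerSeries.coeff_zero_eq_constantCoeff_apply]
  · rw [if_neg hkj, if_neg]
    intro hle
    have := hle k
    simp [hkj] at this

/-- Elements of the square of the ideal of the variables have no linear term. -/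
theorem tate_cot_coeff_single_of_mem_sq (q : MvPowerSeries (Fin r) 𝒪)
    (hq : q ∈ Ideal.span (Set.range (MvPowerSeries.X : Fin r → MvPowerSeries (Fin r) 𝒪)) ^ 2)
    (j : Fin r) : MvPowerSeries.coeff (Finsupp.single j 1) q = 0 := by
  classical
  set K : Ideal (MvPowerSeries (Fin r) 𝒪) :=
    RingHom.ker (MvPowerSeries.constantCoeff (σ := Fin r) (R := 𝒪)) with hK
  have hle : Ideal.span (Set.range (MvPowerSeries.X : Fin r → MvPowerSeries (Fin r) 𝒪)) ≤ K := by
    rw [Ideal.span_le]
    rintro _ ⟨i, rfl⟩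
    simp [hK, RingHom.mem_ker]
  have hq' : q ∈ K * K := by
    rw [← pow_two]
    exact Ideal.pow_right_mono hle 2 hq
  refine Submodule.mul_induction_on hq' ?_ ?_
  · intro u hu v hv
    rw [hK, RingHom.mem_ker] at hu hv
    rw [MvPowerSeries.coeff_mul]
    refine Finset.sum_eq_zero fun p hp => ?_
    rw [Finset.HasAntidiagonal.mem_antidiagonal] at hp
    have hdeg : Finsupp.degree p.1 + Finsupp.degree p.2 = 1 := by
      rw [← map_add, hp]
      simp
    rcases Nat.eq_zero_or_pos (Finsupp.degree p.1) with h0 | hpos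
    · have : p.1 = 0 := (Finsupp.degree_eq_zero_iff _).mp h0
      rw [this, MvPowerSeries.coeff_zero_eq_constantCoeff_apply, hu, zero_mul]
    · have h0 : Finsupp.degree p.2 = 0 := by omega
      have : p.2 = 0 := (Finsupp.degree_eq_zero_iff _).mp h0
      rw [this, MvPowerSeries.coeff_zero_eq_constantCoeff_apply, hv, mul_zero]
  · intro u v hu hv
    rw [map_add, hu, hv, add_zero]

variable {T : Type} [CommRing T] [Algebra 𝒪 T]

/-- `T` acts on the cotangent space of `𝔭 = ker π` through `π`. -/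
theorem tate_cot_smul_toCotangent (π : T →ₐ[𝒪] 𝒪) (t : T)
    (x : RingHom.ker (π : T →+* 𝒪)) :
    (RingHom.ker (π : T →+* 𝒪)).toCotangent (t • x) =
      π t • (RingHom.ker (π : T →+* 𝒪)).toCotangent x := by
  have h1 : (RingHom.ker (π : T →+* 𝒪)).toCotangent (t • x) =
      (RingHom.ker (π : T →+* 𝒪)).toCotangent (algebraMap 𝒪 T (π t) • x) := by
    rw [Ideal.toCotangent_eq]
    have hmem : t - algebraMap 𝒪 T (π t) ∈ RingHom.ker (π : T →+* 𝒪) := by
      rw [RingHom.mem_ker, map_sub]
      simp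
    have : ((t • x : RingHom.ker (π : T →+* 𝒪)) : T) -
        ((algebraMap 𝒪 T (π t) • x : RingHom.ker (π : T →+* 𝒪)) : T) =
        (t - algebraMap 𝒪 T (π t)) * (x : T) := by
      simp [sub_mul, Algebra.smul_def]
    rw [this, pow_two]
    exact Ideal.mul_mem_mul hmem x.2
  rw [h1, map_smul, algebraMap_smul]

end TateCotAux

theorem tate_cotLength_eq {𝒪 : Type} [CommRing 𝒪]
    {T : Type} [CommRing T] [Algebra 𝒪 T]
    (π : T →ₐ[𝒪] 𝒪) (r : ℕ) (γ : MvPowerSeries (Fin r) 𝒪 →ₐ[𝒪] T)
    (hγ : Function.Surjective γ)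
    (hε : ∀ g, π (γ g) = MvPowerSeries.constantCoeff g)
    (c : Matrix (Fin r) (Fin r) (MvPowerSeries (Fin r) 𝒪))
    (hker : RingHom.ker (γ : MvPowerSeries (Fin r) 𝒪 →+* T) =
      Ideal.span (Set.range fun i => ∑ j, c i j * MvPowerSeries.X j)) :
    cotLength π = Module.length 𝒪 ((Fin r → 𝒪) ⧸
      LinearMap.range (Matrix.toLin' (c.map MvPowerSeries.constantCoeff).transpose)) := by
  classical
  set 𝔭 : Ideal T := RingHom.ker (π : T →+* 𝒪) with h𝔭
  have hy : ∀ j, γ (MvPowerSeries.X j) ∈ 𝔭 := fun j => by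
    rw [h𝔭, RingHom.mem_ker]
    change π (γ (MvPowerSeries.X j)) = 0
    rw [hε, MvPowerSeries.constantCoeff_X]
  set y : Fin r → 𝔭 := fun j => ⟨γ (MvPowerSeries.X j), hy j⟩ with hydef
  set ψ : (Fin r → 𝒪) →ₗ[𝒪] 𝔭.Cotangent :=
    Fintype.linearCombination 𝒪 (fun j => 𝔭.toCotangent (y j)) with hψ
  have hact : ∀ (t : T) (x : 𝔭), 𝔭.toCotangent (t • x) = π t • 𝔭.toCotangent x :=
    fun t x => tate_cot_smul_toCotangent π t x
  -- every element of `𝔭` is `γ g` with `g` in the ideal of the variables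
  have hgen : ∀ t ∈ 𝔭, ∃ h : Fin r → MvPowerSeries (Fin r) 𝒪,
      t = ∑ j, γ (h j) * γ (MvPowerSeries.X j) := by
    intro t ht
    obtain ⟨g, rfl⟩ := hγ t
    have hg0 : MvPowerSeries.constantCoeff g = 0 := by
      rw [← hε]
      exact ht
    obtain ⟨h, hh⟩ := Ideal.mem_span_range_iff_exists_fun.mp (tate_cot_mem_span_X g hg0)
    refine ⟨h, ?_⟩
    rw [← hh, map_sum]
    simp
  -- (2) `ψ` is onto
  have hsurj : Function.Surjective ψ := by
    intro m
    obtain ⟨x, rfl⟩ := 𝔭.toCotangent_surjective m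
    obtain ⟨h, hh⟩ := hgen x.1 x.2
    refine ⟨fun j => π (γ (h j)), ?_⟩
    rw [hψ, Fintype.linearCombination_apply]
    have hx : x = ∑ j, γ (h j) • y j := by
      apply Subtype.ext
      rw [hh]
      simp [hydef]
    rw [hx, map_sum]
    exact Finset.sum_congr rfl fun j _ => (hact _ _).symm
  -- the value of `ψ` as a class
  have hψval : ∀ b : Fin r → 𝒪, ψ b = 𝔭.toCotangent (∑ j, algebraMap 𝒪 T (b j) • y j) := by
    intro b
    rw [hψ, Fintype.linearCombination_apply, map_sum]
    refine Finset.sum_congr rfl fun j _ => ?_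
    rw [map_smul, algebraMap_smul]
  -- (3)+(4) the kernel of `ψ` is the row space
  have hkerψ : LinearMap.ker ψ =
      LinearMap.range (Matrix.toLin' (c.map MvPowerSeries.constantCoeff).transpose) := by
    apply le_antisymm
    · -- (4)
      intro b hb
      rw [LinearMap.mem_ker, hψval, Ideal.toCotangent_eq_zero] at hb
      have hb' : γ (∑ j, MvPowerSeries.C (b j) * MvPowerSeries.X j) ∈ 𝔭 ^ 2 := by
        have : γ (∑ j, MvPowerSeries.C (b j) * MvPowerSeries.X j) =
            ((∑ j, algebraMap 𝒪 T (b j) • y j : 𝔭) : T) := by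
          rw [map_sum]
          simp only [map_mul, hydef, AddSubmonoidClass.coe_finsetSum, SetLike.val_smul,
            smul_eq_mul]
          refine Finset.sum_congr rfl fun j _ => ?_
          congr 1
          rw [MvPowerSeries.c_eq_algebraMap, AlgHom.commutes]
        rw [this]
        exact hb
      set 𝔪 : Ideal (MvPowerSeries (Fin r) 𝒪) :=
        Ideal.span (Set.range (MvPowerSeries.X : Fin r → MvPowerSeries (Fin r) 𝒪)) with h𝔪
      have h𝔭le : 𝔭 ≤ Ideal.map (γ : MvPowerSeries (Fin r) 𝒪 →+* T) 𝔪 := by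
        intro t ht
        obtain ⟨h, rfl⟩ := hgen t ht
        refine Ideal.sum_mem _ fun j _ => ?_
        exact Ideal.mul_mem_left _ _ (Ideal.mem_map_of_mem _ (Ideal.subset_span ⟨j, rfl⟩))
      have h2 : (γ : MvPowerSeries (Fin r) 𝒪 →+* T)
          (∑ j, MvPowerSeries.C (b j) * MvPowerSeries.X j) ∈
          Ideal.map (γ : MvPowerSeries (Fin r) 𝒪 →+* T) (𝔪 ^ 2) := by
        rw [Ideal.map_pow]
        exact Ideal.pow_right_mono h𝔭le 2 hb'
      obtain ⟨q, hq, hqeq⟩ :=
        (Ideal.mem_map_iff_of_surjective (γ : MvPowerSeries (Fin r) 𝒪 →+* T) hγ).mp h2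
      have h3 : (∑ j, MvPowerSeries.C (b j) * MvPowerSeries.X j) - q ∈
          RingHom.ker (γ : MvPowerSeries (Fin r) 𝒪 →+* T) := by
        rw [RingHom.mem_ker, map_sub, sub_eq_zero]
        exact hqeq.symm
      rw [hker] at h3
      obtain ⟨g, hg⟩ := Ideal.mem_span_range_iff_exists_fun.mp h3
      refine ⟨fun i => MvPowerSeries.constantCoeff (g i), ?_⟩
      ext j
      have hcoef := congrArg (MvPowerSeries.coeff (Finsupp.single j 1)) hg
      rw [map_sub, tate_cot_coeff_single_of_mem_sq q hq j, sub_zero] at hcoef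
      simp only [Finset.mul_sum, map_sum, ← mul_assoc, tate_cot_coeff_single_mul_X,
        Finset.sum_ite_eq', Finset.mem_univ, if_true, map_mul,
        MvPowerSeries.constantCoeff_C] at hcoef
      rw [Matrix.toLin'_apply, ← hcoef]
      simp only [Matrix.mulVec, dotProduct, Matrix.transpose_apply, Matrix.map_apply]
      exact Finset.sum_congr rfl fun i _ => mul_comm _ _
    · -- (3)
      rw [LinearMap.range_le_ker_iff]
      refine (Pi.basisFun 𝒪 (Fin r)).ext fun i => ?_
      rw [LinearMap.comp_apply, LinearMap.zero_apply, Pi.basisFun_apply, Matrix.toLin'_apply,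
        Matrix.mulVec_single_one, hψ, Fintype.linearCombination_apply]
      have hfi : γ (∑ j, c i j * MvPowerSeries.X j) = 0 := by
        have : (∑ j, c i j * MvPowerSeries.X j) ∈
            RingHom.ker (γ : MvPowerSeries (Fin r) 𝒪 →+* T) := by
          rw [hker]
          exact Ideal.subset_span ⟨i, rfl⟩
        exact this
      have hsum : (∑ j, γ (c i j) • y j : 𝔭) = 0 := by
        apply Subtype.ext
        rw [map_sum] at hfi
        simpa [hydef] using hfi
      have : ∑ j, 𝔭.toCotangent (γ (c i j) • y j) = 0 := by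
        rw [← map_sum, hsum, map_zero]
      rw [← this]
      refine Finset.sum_congr rfl fun j _ => ?_
      rw [hact, hε]
      simp [Matrix.map_apply]
  rw [cotLength]
  exact ((Submodule.quotEquivOfEq _ _ hkerψ.symm).trans
    (LinearMap.quotKerEquivOfSurjective ψ hsurj)).length_eq.symm

end Fermat.Agent.S59
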