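/-
Cluster J (S59), J8, leaf NC0 (Tate's formula): translation automorphisms of `𝒪⟦X₁..X_r⟧` and the
reduction of an augmented presentation to the normal form `π ∘ γ = constantCoeff`.
Owner: helper25.  Sorry-free.
-/
import Fermat.Agent.S59.TWSubst

set_option autoImplicit false

namespace Fermat.Agent.S59

open IsLocalRing

section translate

variable {𝒪 : Type} [CommRing 𝒪] [IsDomain 𝒪] [IsDiscreteValuationRing 𝒪]
  [IsAdicComplete (maximalIdeal 𝒪) 𝒪]

theorem tate_X_add_C_mem_maximalIdeal {r : ℕ} (a : Fin r → 𝒪)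
    (ha : ∀ i, a i ∈ maximalIdeal 𝒪) (i : Fin r) :
    (MvPowerSeries.X i + MvPowerSeries.C (a i) : MvPowerSeries (Fin r) 𝒪) ∈
      maximalIdeal (MvPowerSeries (Fin r) 𝒪) := by
  rw [Fermat.Agent.S53.PowerSeriesAux.mem_maximalIdeal_mvPowerSeries_iff, map_add,
    MvPowerSeries.constantCoeff_X, MvPowerSeries.constantCoeff_C, zero_add]
  exact ha i

theorem tate_algHom_C {r : ℕ} {A : Type} [CommRing A] [Algebra 𝒪 A]
    (φ : MvPowerSeries (Fin r) 𝒪 →ₐ[𝒪] A) (c : 𝒪) :
    φ (MvPowerSeries.C c) = algebraMap 𝒪 A c := by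
  rw [MvPowerSeries.c_eq_algebraMap, φ.commutes]

/-- The translation `X_i ↦ X_i + a_i`, `a_i` in the maximal ideal, is an automorphism of the power
series ring over a complete discrete valuation ring. -/
theorem tate_exists_translate (r : ℕ) (a : Fin r → 𝒪) (ha : ∀ i, a i ∈ maximalIdeal 𝒪) :
    ∃ τ : MvPowerSeries (Fin r) 𝒪 ≃ₐ[𝒪] MvPowerSeries (Fin r) 𝒪,
      ∀ i, τ (MvPowerSeries.X i) = MvPowerSeries.X i + MvPowerSeries.C (a i) := by
  haveI hc : IsAdicComplete (maximalIdeal (MvPowerSeries (Fin r) 𝒪))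
      (MvPowerSeries (Fin r) 𝒪) := Fermat.Agent.S53.mvPowerSeries_isAdicComplete 𝒪 r
  have hna : ∀ i, (-a) i ∈ maximalIdeal 𝒪 := fun i => by
    rw [Pi.neg_apply]; exact neg_mem (ha i)
  obtain ⟨φ, hφ⟩ := exists_algHom_subst (𝒪 := 𝒪) (r := r) (s := r)
    (fun i => MvPowerSeries.X i + MvPowerSeries.C (a i)) (tate_X_add_C_mem_maximalIdeal a ha)
  obtain ⟨ψ, hψ⟩ := exists_algHom_subst (𝒪 := 𝒪) (r := r) (s := r)
    (fun i => MvPowerSeries.X i + MvPowerSeries.C ((-a) i))
    (tate_X_add_C_mem_maximalIdeal (-a) hna)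
  have hX : ∀ i, (MvPowerSeries.X i : MvPowerSeries (Fin r) 𝒪) ∈
      maximalIdeal (MvPowerSeries (Fin r) 𝒪) := fun i => by
    rw [Fermat.Agent.S53.PowerSeriesAux.mem_maximalIdeal_mvPowerSeries_iff,
      MvPowerSeries.constantCoeff_X]
    exact zero_mem _
  have h1 : ψ.comp φ = AlgHom.id 𝒪 _ := by
    refine algHom_mvPowerSeries_ext_of_isHausdorff
      (maximalIdeal (MvPowerSeries (Fin r) 𝒪)) _ _ (fun i => ?_) (fun i => ?_)
    · rw [AlgHom.comp_apply, hφ, map_add, hψ, tate_algHom_C, AlgHom.id_apply,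
        ← MvPowerSeries.c_eq_algebraMap, add_assoc, ← map_add, Pi.neg_apply, neg_add_cancel,
        map_zero, add_zero]
    · rw [AlgHom.comp_apply, hφ, map_add, hψ, tate_algHom_C,
        ← MvPowerSeries.c_eq_algebraMap, add_assoc, ← map_add, Pi.neg_apply, neg_add_cancel,
        map_zero, add_zero]
      exact hX i
  have h2 : φ.comp ψ = AlgHom.id 𝒪 _ := by
    refine algHom_mvPowerSeries_ext_of_isHausdorff
      (maximalIdeal (MvPowerSeries (Fin r) 𝒪)) _ _ (fun i => ?_) (fun i => ?_)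
    · rw [AlgHom.comp_apply, hψ, map_add, hφ, tate_algHom_C, AlgHom.id_apply,
        ← MvPowerSeries.c_eq_algebraMap, add_assoc, ← map_add, Pi.neg_apply, add_neg_cancel,
        map_zero, add_zero]
    · rw [AlgHom.comp_apply, hψ, map_add, hφ, tate_algHom_C,
        ← MvPowerSeries.c_eq_algebraMap, add_assoc, ← map_add, Pi.neg_apply, add_neg_cancel,
        map_zero, add_zero]
      exact hX i
  exact ⟨AlgEquiv.ofAlgHom φ ψ h2 h1, fun i => hφ i⟩

end translate

end Fermat.Agent.S59
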