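/-
Cluster J (S59), J8, leaf NC0 (Tate's formula): reduction of an augmented complete intersection
`γ : 𝒪⟦X₁..X_r⟧ ↠ T`, `π : T → 𝒪`, to the normal form `π ∘ γ = constantCoeff`,
`ker γ = (Σ_j c_ij X_j)_i`.
Owner: helper25.  Sorry-free.
-/
import Fermat.Agent.S59.NumCrit.Tate.Translate

set_option autoImplicit false

namespace Fermat.Agent.S59

open IsLocalRing

section aug

variable {𝒪 : Type} [CommRing 𝒪] {r : ℕ}

/-- An augmentation of the power series ring sends the variables into the maximal ideal. -/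
theorem tate_aug_mem_maximalIdeal [IsLocalRing 𝒪]
    (ε : MvPowerSeries (Fin r) 𝒪 →ₐ[𝒪] 𝒪) (i : Fin r) :
    ε (MvPowerSeries.X i) ∈ maximalIdeal 𝒪 := by
  by_contra h
  have hu : IsUnit (ε (MvPowerSeries.X i)) := by
    by_contra hn
    exact h hn
  have hunit : IsUnit (MvPowerSeries.X i - MvPowerSeries.C (ε (MvPowerSeries.X i)) :
      MvPowerSeries (Fin r) 𝒪) := by
    rw [MvPowerSeries.isUnit_iff_constantCoeff, map_sub, MvPowerSeries.constantCoeff_X,
      MvPowerSeries.constantCoeff_C, zero_sub]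
    exact hu.neg
  have h0 : ε (MvPowerSeries.X i - MvPowerSeries.C (ε (MvPowerSeries.X i))) = 0 := by
    rw [map_sub, MvPowerSeries.c_eq_algebraMap, ε.commutes, Algebra.algebraMap_self_apply,
      sub_self]
  have := hunit.map ε
  rw [h0] at this
  exact not_isUnit_zero this

/-- An augmentation of the power series ring killing the variables is the constant coefficient. -/
theorem tate_aug_eq_constantCoeff (ε : MvPowerSeries (Fin r) 𝒪 →ₐ[𝒪] 𝒪)
    (h : ∀ i, ε (MvPowerSeries.X i) = 0) (g : MvPowerSeries (Fin r) 𝒪) :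
    ε g = MvPowerSeries.constantCoeff g := by
  have hg' : g - MvPowerSeries.C (MvPowerSeries.constantCoeff g) ∈
      Ideal.span (Set.range (MvPowerSeries.X : Fin r → MvPowerSeries (Fin r) 𝒪)) := by
    have := Fermat.Agent.S53.PowerSeriesAux.mem_span_X_pow_of_coeff_eq_zero (σ := Fin r) 1
      (g - MvPowerSeries.C (MvPowerSeries.constantCoeff g))
      (fun x hx => by
        have hx0 : x = 0 := by
          rw [Nat.lt_one_iff] at hx
          exact (Finsupp.degree_eq_zero_iff x).mp hx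
        rw [hx0, MvPowerSeries.coeff_zero_eq_constantCoeff_apply, map_sub,
          MvPowerSeries.constantCoeff_C, sub_self])
    simpa using this
  have hle : Ideal.span (Set.range (MvPowerSeries.X : Fin r → MvPowerSeries (Fin r) 𝒪)) ≤
      RingHom.ker (ε : MvPowerSeries (Fin r) 𝒪 →+* 𝒪) := by
    rw [Ideal.span_le]
    rintro _ ⟨i, rfl⟩
    exact RingHom.mem_ker.mpr (h i)
  have h0 := RingHom.mem_ker.mp (hle hg')
  have h1 : ε (g - MvPowerSeries.C (MvPowerSeries.constantCoeff g)) = 0 := h0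
  rw [map_sub, sub_eq_zero, MvPowerSeries.c_eq_algebraMap, ε.commutes,
    Algebra.algebraMap_self_apply] at h1
  exact h1

end aug

section normalForm

variable {𝒪 : Type} [CommRing 𝒪] [IsDomain 𝒪] [IsDiscreteValuationRing 𝒪]
  [IsAdicComplete (maximalIdeal 𝒪) 𝒪]
  {T : Type} [CommRing T] [Algebra 𝒪 T]

/-- Normal form of an augmented complete intersection. -/
theorem tate_exists_normalForm (π : T →ₐ[𝒪] 𝒪) (r : ℕ)
    (γ : MvPowerSeries (Fin r) 𝒪 →ₐ[𝒪] T) (hγ : Function.Surjective γ)
    (f : Fin r → MvPowerSeries (Fin r) 𝒪)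
    (hker : RingHom.ker (γ : MvPowerSeries (Fin r) 𝒪 →+* T) = Ideal.span (Set.range f)) :
    ∃ (γ' : MvPowerSeries (Fin r) 𝒪 →ₐ[𝒪] T)
      (c : Matrix (Fin r) (Fin r) (MvPowerSeries (Fin r) 𝒪)),
      Function.Surjective γ' ∧ (∀ g, π (γ' g) = MvPowerSeries.constantCoeff g) ∧
      RingHom.ker (γ' : MvPowerSeries (Fin r) 𝒪 →+* T) =
        Ideal.span (Set.range fun i => ∑ j, c i j * MvPowerSeries.X j) := by
  set ε : MvPowerSeries (Fin r) 𝒪 →ₐ[𝒪] 𝒪 := π.comp γ with hε
  set a : Fin r → 𝒪 := fun i => ε (MvPowerSeries.X i) with ha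
  have ham : ∀ i, a i ∈ maximalIdeal 𝒪 := fun i => tate_aug_mem_maximalIdeal ε i
  obtain ⟨τ, hτ⟩ := tate_exists_translate r a ham
  -- `τ.symm` sends `X_i` to `X_i - a_i`
  have hτs : ∀ i, τ.symm (MvPowerSeries.X i) =
      MvPowerSeries.X i - MvPowerSeries.C (a i) := by
    intro i
    apply τ.injective
    rw [AlgEquiv.apply_symm_apply, map_sub, hτ, MvPowerSeries.c_eq_algebraMap, τ.commutes,
      add_sub_cancel_right]
  set γ' : MvPowerSeries (Fin r) 𝒪 →ₐ[𝒪] T := γ.comp (τ.symm : _ →ₐ[𝒪] _) with hγ'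
  have hsurj : Function.Surjective γ' := by
    intro t
    obtain ⟨g, rfl⟩ := hγ t
    exact ⟨τ g, by simp [hγ']⟩
  have hε' : ∀ g, π (γ' g) = MvPowerSeries.constantCoeff g := by
    intro g
    refine tate_aug_eq_constantCoeff (π.comp γ') (fun i => ?_) g
    rw [AlgHom.comp_apply, hγ', AlgHom.comp_apply]
    change π (γ (τ.symm (MvPowerSeries.X i))) = 0
    rw [hτs, map_sub, map_sub, tate_algHom_C γ, AlgHom.commutes, Algebra.algebraMap_self_apply]
    change ε (MvPowerSeries.X i) - a i = 0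
    rw [ha, sub_self]
  have hker' : RingHom.ker (γ' : MvPowerSeries (Fin r) 𝒪 →+* T) =
      Ideal.span (Set.range fun i => τ (f i)) := by
    ext g
    rw [RingHom.mem_ker]
    change γ (τ.symm g) = 0 ↔ _
    have hk : γ (τ.symm g) = 0 ↔ τ.symm g ∈ Ideal.span (Set.range f) := by
      rw [← hker, RingHom.mem_ker]
      rfl
    rw [hk]
    have hmap : Ideal.span (Set.range fun i => τ (f i)) =
        Ideal.map (τ : MvPowerSeries (Fin r) 𝒪 →+* MvPowerSeries (Fin r) 𝒪)
          (Ideal.span (Set.range f)) := by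
      rw [Ideal.map_span, ← Set.range_comp]
      rfl
    rw [hmap]
    constructor
    · intro h
      have := Ideal.mem_map_of_mem (τ : MvPowerSeries (Fin r) 𝒪 →+* MvPowerSeries (Fin r) 𝒪) h
      simpa using this
    · intro h
      obtain ⟨g', hg', rfl⟩ := (Ideal.mem_map_iff_of_surjective
        (τ : MvPowerSeries (Fin r) 𝒪 →+* MvPowerSeries (Fin r) 𝒪) τ.surjective).mp h
      simpa using hg'
  have hf0 : ∀ i, MvPowerSeries.constantCoeff (τ (f i)) = 0 := by
    intro i
    rw [← hε']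
    have : τ (f i) ∈ RingHom.ker (γ' : MvPowerSeries (Fin r) 𝒪 →+* T) := by
      rw [hker']
      exact Ideal.subset_span ⟨i, rfl⟩
    rw [RingHom.mem_ker] at this
    change γ' (τ (f i)) = 0 at this
    rw [this, map_zero]
  have hfX : ∀ i, ∃ h : Fin r → MvPowerSeries (Fin r) 𝒪,
      ∑ j, h j * MvPowerSeries.X j = τ (f i) := by
    intro i
    have := Fermat.Agent.S53.PowerSeriesAux.mem_span_X_pow_of_coeff_eq_zero (σ := Fin r) 1
      (τ (f i))
      (fun x hx => by
        have hx0 : x = 0 := by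
          rw [Nat.lt_one_iff] at hx
          exact (Finsupp.degree_eq_zero_iff x).mp hx
        rw [hx0]
        exact hf0 i)
    rw [pow_one] at this
    exact (Ideal.mem_span_range_iff_exists_fun).mp this
  choose c hc using hfX
  refine ⟨γ', Matrix.of c, hsurj, hε', ?_⟩
  rw [hker']
  congr 2
  funext i
  exact (hc i).symm

end normalForm

end Fermat.Agent.S59
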