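/-
Cluster J (S59), J8, leaf NC0 (Tate's formula), sub-piece COKER.  Owner: helper67.
Architect of NC0: helper25 (file `S59/NumCrit/Tate.lean`).

Over a discrete valuation ring the cokernel of a square matrix has the length of `𝒪/(det)`
(both sides are `⊤` when `det A = 0`).

Route: `det A ≠ 0`: `range A` has full rank, `Submodule.quotientEquivPiSpan` (Smith normal form)
gives `coker ≅ Π 𝒪/(a_i)`, `det A` is associated to `∏ a_i` (`LinearMap.associated_det_comp_equiv`,
as in `Submodule.natAbs_det_equiv`), and `Ring.ord_mul` adds the lengths.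
`det A = 0`: a non-zero `w` with `w ᵥ* A = 0` gives a non-zero functional on the cokernel, so the
cokernel contains a copy of `𝒪`, of infinite length.
-/
import Mathlib.RingTheory.Length
import Mathlib.RingTheory.DiscreteValuationRing.Basic
import Mathlib.RingTheory.OrderOfVanishing.Basic
import Mathlib.LinearAlgebra.FreeModule.Finite.Quotient
import Mathlib.LinearAlgebra.Matrix.ToLin
import Mathlib.LinearAlgebra.Determinant
import Mathlib.LinearAlgebra.Matrix.ToLinearEquiv
import Mathlib.RingTheory.Artinian.Ring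

set_option autoImplicit false

namespace Fermat.Agent.S59

open Module Submodule

section PID

theorem tateCoker_ord_prod {R : Type*} [CommRing R] [IsDomain R] {ι : Type*} (s : Finset ι)
    (a : ι → R) (ha : ∀ i ∈ s, a i ≠ 0) :
    Ring.ord R (∏ i ∈ s, a i) = ∑ i ∈ s, Ring.ord R (a i) := by
  classical
  induction s using Finset.induction_on with
  | empty => simp
  | insert j s hj ih =>
    rw [Finset.prod_insert hj, Finset.sum_insert hj, Ring.ord_mul, ih]
    · exact fun i hi => ha i (Finset.mem_insert_of_mem hi)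
    · refine mem_nonZeroDivisors_of_ne_zero ?_
      exact Finset.prod_ne_zero_iff.mpr fun i hi => ha i (Finset.mem_insert_of_mem hi)

variable {R : Type*} [CommRing R] [IsDomain R] [IsPrincipalIdealRing R]
variable {M : Type*} [AddCommGroup M] [Module R M] [Module.Free R M] [Module.Finite R M]

/-- Over a principal ideal domain the length of `M ⧸ N`, `N ≅ M`, is the order of vanishing of the
determinant of `M ≅ N ⊆ M`. -/
theorem tateCoker_ord_det_equiv (N : Submodule R M) (e : M ≃ₗ[R] N) :
    Ring.ord R (LinearMap.det (N.subtype ∘ₗ (e : M →ₗ[R] N))) = Module.length R (M ⧸ N) := by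
  classical
  let b := Module.Free.chooseBasis R M
  have h : Module.finrank R N = Module.finrank R M := e.symm.finrank_eq
  let a := smithNormalFormCoeffs b h
  let b' := smithNormalFormTopBasis b h
  let ab := smithNormalFormBotBasis b h
  have ab_eq := smithNormalFormBotBasis_def b h
  have ha0 : ∀ i, a i ≠ 0 := fun i => smithNormalFormCoeffs_ne_zero b h i
  let e' : M ≃ₗ[R] N := b'.equiv ab (Equiv.refl _)
  let f : M →ₗ[R] M := N.subtype.comp (e' : M →ₗ[R] N)
  have f_apply : ∀ x, f x = b'.equiv ab (Equiv.refl _) x := fun x ↦ rfl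
  have ha : ∀ i, f (b' i) = a i • b' i := by
    intro i
    rw [f_apply, b'.equiv_apply, Equiv.refl_apply]
    exact ab_eq i
  have hdet : LinearMap.det f = ∏ i, a i := by
    rw [← LinearMap.det_toMatrix b', ← Matrix.det_diagonal]
    congr 1
    ext i j
    rw [LinearMap.toMatrix_apply, ha, map_smul, Basis.repr_self, Finsupp.smul_single,
      smul_eq_mul, mul_one]
    by_cases hij : i = j
    · rw [hij, Matrix.diagonal_apply_eq, Finsupp.single_eq_same]
    · rw [Matrix.diagonal_apply_ne _ hij, Finsupp.single_eq_of_ne hij]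
  have h1 : Ring.ord R (LinearMap.det (N.subtype ∘ₗ (e : M →ₗ[R] N))) =
      Ring.ord R (LinearMap.det f) :=
    Ring.ord_eq_of_associated (LinearMap.associated_det_comp_equiv _ _ _)
  rw [h1, hdet, tateCoker_ord_prod Finset.univ a (fun i _ => ha0 i),
    (quotientEquivPiSpan N b h).length_eq, Module.length_pi_of_fintype]
  rfl

end PID

theorem tateCoker_length_self {𝒪 : Type} [CommRing 𝒪] [IsDomain 𝒪] [IsDiscreteValuationRing 𝒪] :
    Module.length 𝒪 𝒪 = ⊤ := by
  by_contra h
  have h' : Module.length 𝒪 𝒪 ≠ ⊤ := h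
  rw [Module.length_ne_top_iff, isFiniteLength_iff_isNoetherian_isArtinian] at h'
  have : IsArtinianRing 𝒪 := h'.2
  exact IsDiscreteValuationRing.not_isField 𝒪 (IsArtinianRing.isField_of_isDomain 𝒪)

theorem tateCoker_length_top_of_det_eq_zero {𝒪 : Type} [CommRing 𝒪] [IsDomain 𝒪]
    [IsDiscreteValuationRing 𝒪] (r : ℕ) (A : Matrix (Fin r) (Fin r) 𝒪) (hA : A.det = 0) :
    Module.length 𝒪 ((Fin r → 𝒪) ⧸ LinearMap.range (Matrix.toLin' A)) = ⊤ := by
  classical
  obtain ⟨w, hw0, hw⟩ := Matrix.exists_vecMul_eq_zero_iff.mpr hA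
  obtain ⟨i, hi⟩ : ∃ i, w i ≠ 0 := by
    by_contra hcon
    push Not at hcon
    exact hw0 (funext hcon)
  -- the functional `x ↦ w ⬝ᵥ x` kills the range of `A`
  let φ : (Fin r → 𝒪) →ₗ[𝒪] 𝒪 :=
    { toFun := fun x => w ⬝ᵥ x
      map_add' := fun x y => dotProduct_add w x y
      map_smul' := fun c x => by simp [dotProduct_smul] }
  have hφ : ∀ x, φ x = w ⬝ᵥ x := fun x => rfl
  have hker : LinearMap.range (Matrix.toLin' A) ≤ LinearMap.ker φ := by
    rintro _ ⟨x, rfl⟩
    rw [LinearMap.mem_ker, hφ, Matrix.toLin'_apply, Matrix.dotProduct_mulVec, hw,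
      zero_dotProduct]
  let φbar : ((Fin r → 𝒪) ⧸ LinearMap.range (Matrix.toLin' A)) →ₗ[𝒪] 𝒪 :=
    (LinearMap.range (Matrix.toLin' A)).liftQ φ hker
  let ψ : 𝒪 →ₗ[𝒪] ((Fin r → 𝒪) ⧸ LinearMap.range (Matrix.toLin' A)) :=
    (LinearMap.range (Matrix.toLin' A)).mkQ.comp (LinearMap.single 𝒪 (fun _ => 𝒪) i)
  have hcomp : ∀ t : 𝒪, φbar (ψ t) = w i * t := by
    intro t
    show φ (Pi.single i t) = w i * t
    rw [hφ, dotProduct_single]
  have hinj : Function.Injective ψ := by
    intro s t hst
    have h1 := congrArg φbar hst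
    rw [hcomp, hcomp] at h1
    exact mul_left_cancel₀ hi h1
  have h2 := Module.length_le_of_injective ψ hinj
  rw [tateCoker_length_self] at h2
  exact top_le_iff.mp h2

theorem tate_length_coker {𝒪 : Type} [CommRing 𝒪] [IsDomain 𝒪] [IsDiscreteValuationRing 𝒪]
    (r : ℕ) (A : Matrix (Fin r) (Fin r) 𝒪) :
    Module.length 𝒪 ((Fin r → 𝒪) ⧸ LinearMap.range (Matrix.toLin' A)) =
      Module.length 𝒪 (𝒪 ⧸ Ideal.span {A.det}) := by
  classical
  by_cases hA : A.det = 0
  · rw [tateCoker_length_top_of_det_eq_zero r A hA, hA]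
    have h1 : Module.length 𝒪 (𝒪 ⧸ Ideal.span {(0 : 𝒪)}) = Ring.ord 𝒪 0 := rfl
    rw [h1, Ring.ord_zero, tateCoker_length_self]
  · have hdet : LinearMap.det (Matrix.toLin' A) = A.det := LinearMap.det_toLin' A
    have hinj : Function.Injective (Matrix.toLin' A) := by
      rw [injective_iff_map_eq_zero]
      intro v hv
      rw [Matrix.toLin'_apply] at hv
      exact Matrix.eq_zero_of_mulVec_eq_zero hA hv
    let e : (Fin r → 𝒪) ≃ₗ[𝒪] LinearMap.range (Matrix.toLin' A) :=
      LinearEquiv.ofInjective (Matrix.toLin' A) hinj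
    have he : (LinearMap.range (Matrix.toLin' A)).subtype ∘ₗ
        (e : (Fin r → 𝒪) →ₗ[𝒪] LinearMap.range (Matrix.toLin' A)) = Matrix.toLin' A := by
      ext x
      rfl
    have h1 := tateCoker_ord_det_equiv (LinearMap.range (Matrix.toLin' A)) e
    rw [he, hdet] at h1
    rw [← h1]
    rfl

end Fermat.Agent.S59
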